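import Mathlib
import Fermat.Agent.MU.S36.Ig.EpsGen
import Fermat.Agent.MU.S24.Assembly
import Fermat.Agent.MU.S24.JLocal
import Fermat.Agent.MU.S24.Invariants
import Fermat.Agent.MU.Lib.GoodRed.ModularBranch
import Fermat.Agent.Lib.GoodRed.Places

section MergeWrap_S48_W_G_Red_Branch_Val -- from S48/W/G/Red/Branch/Val.lean

set_option autoImplicit false

noncomputable section

namespace Fermat.Agent.S48WG

open UpperHalfPlane Fermat.Agent.S24 Fermat.Agent.S48WKron Fermat.Agent.S24Inv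
open scoped MatrixGroups Manifold

/-- The valuation `exp (- ord_{τ₀})` of `AHb M`. -/
def brValAHb (M : ℕ) [NeZero M] (τ₀ : ℍ) : Valuation (AHb M) (WithZero (Multiplicative ℤ)) where
  toFun f := expNeg (ordAt τ₀ (f : Fun))
  map_zero' := by
    show expNeg (ordAt τ₀ (0 : Fun)) = 0
    rw [ordAt_zero, expNeg_top]
  map_one' := by
    show expNeg (ordAt τ₀ (1 : Fun)) = 1
    rw [ordAt_one, expNeg_zero]
  map_mul' f g := by
    show expNeg (ordAt τ₀ ((f : Fun) * (g : Fun))) = _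
    rw [(isHol_of_mem_AHb f.2).ordAt_mul (isHol_of_mem_AHb g.2), expNeg_add]
  map_add_le_max' f g := by
    show expNeg (ordAt τ₀ ((f : Fun) + (g : Fun))) ≤ _
    exact expNeg_le_max_of_min_le (min_ordAt_le_add _ _ τ₀)

theorem brValAHb_apply (M : ℕ) [NeZero M] (τ₀ : ℍ) (f : AHb M) :
    brValAHb M τ₀ f = expNeg (ordAt τ₀ (f : Fun)) := rfl

theorem brValAHb_eq_zero_iff (M : ℕ) [NeZero M] (τ₀ : ℍ) (f : AHb M) :
    brValAHb M τ₀ f = 0 ↔ f = 0 := by
  rw [brValAHb_apply, expNeg_eq_zero_iff, (isHol_of_mem_AHb f.2).ordAt_eq_top_iff]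
  exact ⟨fun h => Subtype.ext h, fun h => congrArg Subtype.val h⟩

theorem br_nonZeroDivisors_le_supp (M : ℕ) [NeZero M] (τ₀ : ℍ) :
    nonZeroDivisors (AHb M) ≤ (brValAHb M τ₀).supp.primeCompl := by
  intro f hf hmem
  rw [SetLike.mem_coe, Valuation.mem_supp_iff, brValAHb_eq_zero_iff] at hmem
  exact nonZeroDivisors.ne_zero hf hmem

/-- **The valuation `exp (- ord_{τ₀})` of `LHb M`.** -/
def brValLHb (M : ℕ) [NeZero M] (τ₀ : ℍ) : Valuation (LHb M) (WithZero (Multiplicative ℤ)) :=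
  (brValAHb M τ₀).extendToLocalization (br_nonZeroDivisors_le_supp M τ₀) (LHb M)

@[simp] theorem brValLHb_algebraMap (M : ℕ) [NeZero M] (τ₀ : ℍ) (f : AHb M) :
    brValLHb M τ₀ (algebraMap (AHb M) (LHb M) f) = brValAHb M τ₀ f :=
  Valuation.extendToLocalization_apply_map_apply _ _ _ f

theorem brValLHb_ofFun (M : ℕ) [NeZero M] (τ₀ : ℍ) (f : Fun) (hf : IsAHb M f) :
    brValLHb M τ₀ (LHb.ofFun f hf) = expNeg (ordAt τ₀ f) :=
  brValLHb_algebraMap M τ₀ ⟨f, hf⟩

theorem brValAHb_smul (M : ℕ) [NeZero M] {τ₀ : ℍ} (γ : SL(2, ℤ)) (hγ : γ • τ₀ = τ₀)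
    (f : AHb M) : brValAHb M τ₀ (γ • f) = brValAHb M τ₀ f := by
  rw [brValAHb_apply, brValAHb_apply, AHb.coe_smul, (isHol_of_mem_AHb f.2).ordAt_smul γ hγ]

theorem brValLHb_smul (M : ℕ) [NeZero M] {τ₀ : ℍ} (γ : SL(2, ℤ)) (hγ : γ • τ₀ = τ₀)
    (x : LHb M) : brValLHb M τ₀ (γ • x) = brValLHb M τ₀ x := by
  obtain ⟨a, b, hb, rfl⟩ := IsFractionRing.div_surjective (A := AHb M) x
  rw [smul_div₀', LHb.smul_algebraMap, LHb.smul_algebraMap, map_div₀, map_div₀,
    brValLHb_algebraMap, brValLHb_algebraMap, brValLHb_algebraMap, brValLHb_algebraMap,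
    brValAHb_smul M γ hγ, brValAHb_smul M γ hγ]

theorem brValLHb_algebraMap_K (M : ℕ) [NeZero M] (τ₀ : ℍ) {a : Kbar} (ha : a ≠ 0) :
    brValLHb M τ₀ (algebraMap Kbar (LHb M) a) = 1 := by
  rw [IsScalarTower.algebraMap_apply Kbar (AHb M) (LHb M), brValLHb_algebraMap, brValAHb_apply]
  show expNeg (ordAt τ₀ (algebraMap Kbar Fun a)) = 1
  rw [ordAt_algebraMap τ₀ ha, expNeg_zero]

/-- The valuation of `j - c` at `τ₀` from the analytic order. -/
theorem brValLHb_jLHb_sub (M : ℕ) [NeZero M] (τ₀ : ℍ) (c : Kbar) (k : ℕ)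
    (h : analyticOrderAt (fun z : ℂ => jFun (ofComplex z) - iota c) (τ₀ : ℂ) = (k : ℕ∞)) :
    brValLHb M τ₀ (jLHb M - algebraMap Kbar (LHb M) c) = WithZero.exp (-(k : ℤ)) := by
  have e : jLHb M - algebraMap Kbar (LHb M) c
      = algebraMap (AHb M) (LHb M) (jAHb M - algebraMap Kbar (AHb M) c) := by
    rw [map_sub, ← IsScalarTower.algebraMap_apply Kbar (AHb M) (LHb M)]
    rfl
  rw [e, brValLHb_algebraMap, brValAHb_apply]
  have h' : ordAt τ₀ ((jAHb M - algebraMap Kbar (AHb M) c : AHb M) : Fun) = (k : ℕ∞) := h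
  rw [h', expNeg_coe]

/-! ### `j` is transcendental -/

/-- the expansion of `j` at `∞` in `LHb M`. -/
theorem br_expLHb_jLHb (M : ℕ) [NeZero M] :
    expLHb M (jLHb M) = ModularCurve.qExpand Kbar M (ModularCurve.jqModC Kbar) := by
  unfold jLHb
  rw [expLHb_algebraMap]
  exact expAHb_eq (f := jAHb M) (hasExp_jFun M)

/-- `j` is transcendental over `ℚ̄` in `LHb M` (it has a pole at `∞`). -/
theorem br_transcendental_jLHb (M : ℕ) [NeZero M] : Transcendental Kbar (jLHb M) := by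
  intro halg
  have hint : IsIntegral Kbar (jLHb M) := halg.isIntegral
  have hirr := minpoly.irreducible hint
  have hdeg := IsAlgClosed.degree_eq_one_of_irreducible Kbar hirr
  obtain ⟨c, hc⟩ := minpoly.mem_range_of_degree_eq_one Kbar (jLHb M) hdeg
  have h1 : expLHb M (jLHb M) = algebraMap Kbar (LaurentSeries Kbar) c := by
    rw [← hc]
    exact (expLHb M).commutes c
  rw [br_expLHb_jLHb] at h1
  have h2 := coeff_qExpand_jqModC_pow M 1
  rw [pow_one, h1, algebraMap_eq_single, HahnSeries.coeff_single_of_ne] at h2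
  · exact zero_ne_one h2
  · have hM : (M : ℤ) ≠ 0 := by exact_mod_cast NeZero.ne M
    intro h
    apply hM
    have : (M : ℤ) * ((1 : ℕ) : ℤ) = 0 := by
      have := congrArg (fun t : ℤ => -t) h
      simpa using this
    simpa using this

/-! ### the local point above `j = c` -/

/-- a point of `ℍ` above `j = c`, `c ≠ 0, 1728`, at which `j - c` is a local parameter. -/
theorem br_exists_local_point (M : ℕ) [NeZero M] (c : Kbar) (hc0 : c ≠ 0) (hc1 : c ≠ 1728) :
    ∃ τ : ℍ, jFun τ = iota c ∧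
      brValLHb M τ (jLHb M - algebraMap Kbar (LHb M) c) = WithZero.exp (-(1 : ℤ)) := by
  obtain ⟨τ₀, hτ₀⟩ := JLocal.jFun_surjective (iota c)
  have h0 : jFun τ₀ ≠ 0 := by
    rw [hτ₀]
    intro h
    exact hc0 (iota_injective (by rw [h, map_zero]))
  have h1 : jFun τ₀ ≠ 1728 := by
    rw [hτ₀]
    intro h
    apply hc1
    apply iota_injective
    rw [h]
    exact (map_ofNat iota 1728).symm
  refine ⟨τ₀, hτ₀, ?_⟩
  have := brValLHb_jLHb_sub M τ₀ c 1 (by
    rw [← hτ₀]
    exact_mod_cast JLocal.analyticOrderAt_jFun_sub τ₀ h0 h1)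
  simpa using this

/-- the valuation needed by `br_card_of_hom`. -/
theorem br_exists_val (M : ℕ) [NeZero M] (c : Kbar) (hc0 : c ≠ 0) (hc1 : c ≠ 1728) :
    ∃ w : Valuation (LHb M) (WithZero (Multiplicative ℤ)),
      (∀ a : Kbar, a ≠ 0 → w (algebraMap Kbar (LHb M) a) = 1) ∧
      w (jLHb M - algebraMap Kbar (LHb M) c) = WithZero.exp (-(1 : ℤ)) := by
  obtain ⟨τ, -, hτ⟩ := br_exists_local_point M c hc0 hc1
  exact ⟨brValLHb M τ, fun a ha => brValLHb_algebraMap_K M τ ha, hτ⟩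

end Fermat.Agent.S48WG
end
end MergeWrap_S48_W_G_Red_Branch_Val

section MergeWrap_S48_W_G_Red_Branch_Hom -- from S48/W/G/Red/Branch/Hom.lean

set_option autoImplicit false
set_option linter.style.haveILetI false

noncomputable section

namespace Fermat.Agent.S48WG

open AlgebraicCurve IntermediateField Fermat.Agent.GoodRedBranch

/-- the stabiliser of `φ F`. -/
def brStab {K F L Γ : Type*} [Field K] [Field F] [Algebra K F] [Field L] [Algebra K L]
    [Group Γ] [MulSemiringAction Γ L] (φ : F →ₐ[K] L) : Subgroup Γ where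
  carrier := {g | ∀ x : F, g • φ x = φ x}
  one_mem' := fun x => one_smul _ _
  mul_mem' := by
    intro a b ha hb x
    show (a * b) • φ x = φ x
    rw [mul_smul, hb x, ha x]
  inv_mem' := by
    intro a ha x
    show a⁻¹ • φ x = φ x
    rw [inv_smul_eq_iff, ha x]

/-- **an unramified fibre**: `#{v | v(j - c) > 0} = [F : K(j)]`. -/
theorem br_card_of_hom
    {K F L Γ : Type*} [Field K] [IsAlgClosed K] [CharZero K]
    [Field F] [Algebra K F] [Field L] [Algebra K L]
    [Group Γ] [MulSemiringAction Γ L] [SMulCommClass Γ K L]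
    (φ : F →ₐ[K] L) (j : F) (jL : L) (hφj : φ j = jL)
    (htr : Transcendental K jL)
    (hfin : ∃ Γ' : Subgroup Γ, Γ'.FiniteIndex ∧ ∀ g ∈ Γ', ∀ x : L, g • x = x)
    (hj : ∀ g : Γ, g • jL = jL)
    (hfix : ∀ x : L, (∀ g : Γ, g • x = x) → x ∈ IntermediateField.adjoin K {jL})
    (c : K) (w : Valuation L (WithZero (Multiplicative ℤ)))
    (hwK : ∀ a : K, a ≠ 0 → w (algebraMap K L a) = 1)
    (hw : w (jL - algebraMap K L c) = WithZero.exp (-(1 : ℤ))) :
    Nat.card {v : Place K F // 0 < v.ord (j - algebraMap K F c)} = Module.finrank K⟮j⟯ F := by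
  obtain ⟨hrank, hfib, -⟩ := card_fibre_of_hom φ j jL hφj htr hfin hj hfix
    (brStab (Γ := Γ) φ) (fun _ => Iff.rfl)
  obtain ⟨h1, h2⟩ := hfib c w 1 (1 : Γ) hwK one_pos (by simpa using hw)
    (fun x => by rw [one_smul])
    (fun k => by
      constructor
      · intro _
        exact one_dvd _
      · intro _ x
        rw [one_zpow, one_smul])
  rw [h1, h2 rfl, hrank]

end Fermat.Agent.S48WG
end
end MergeWrap_S48_W_G_Red_Branch_Hom

section MergeWrap_S48_W_G_Red_Branch_Count -- from S48/W/G/Red/Branch/Count.lean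

set_option autoImplicit false
set_option linter.style.haveILetI false

noncomputable section

namespace Fermat.Agent.S48WG

open UpperHalfPlane AlgebraicCurve IntermediateField Fermat.Agent.S24 Fermat.Agent.S48WKron
open scoped MatrixGroups

variable {F : Type} [Field F] [Algebra Kbar F] {M : ℕ} [NeZero M]

/-- `x` is transcendental. -/
theorem br_transcendental_of_emb (φ : F →ₐ[Kbar] LHb M) (x : F) (hφx : φ x = jLHb M) :
    Transcendental Kbar x := by
  intro h
  apply br_transcendental_jLHb M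
  rw [← hφx]
  exact IsAlgebraic.algHom φ h

/-- `F / ℚ̄(x)` is finite. -/
theorem br_finiteDimensional_of_emb (φ : F →ₐ[Kbar] LHb M) (x : F) (hφx : φ x = jLHb M) :
    FiniteDimensional Kbar⟮x⟯ F := by
  letI : Algebra F (LHb M) := φ.toRingHom.toAlgebra
  haveI : IsScalarTower Kbar F (LHb M) :=
    IsScalarTower.of_algebraMap_eq (fun a => (φ.commutes a).symm)
  have hmap : ∀ y : F, algebraMap F (LHb M) y = φ y := fun _ => rfl
  have hj' : ∀ g : SL(2, ℤ), g • algebraMap F (LHb M) x = algebraMap F (LHb M) x := by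
    rw [hmap, hφx]
    exact smul_jLHb M
  have hfix' : ∀ y : LHb M, (∀ g : SL(2, ℤ), g • y = y) →
      y ∈ IntermediateField.adjoin Kbar {algebraMap F (LHb M) x} := by
    rw [hmap, hφx]
    exact mem_adjoin_jLHb_of_invariant M
  exact (Fermat.Agent.S24Gal.finrank_eq_index x (exists_finiteIndex_fixing_LHb M) hj' hfix'
    (brStab (Γ := SL(2, ℤ)) φ) (fun _ => Iff.rfl)).1

/-- `F / ℚ̄(x)` is separable (characteristic `0`). -/
theorem br_isSeparable_of_emb (φ : F →ₐ[Kbar] LHb M) (x : F) (hφx : φ x = jLHb M) :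
    Algebra.IsSeparable Kbar⟮x⟯ F := by
  haveI := br_finiteDimensional_of_emb φ x hφx
  infer_instance

/-- **(G-BRANCH, places form)** the fibre of `x` over `c ≠ 0, 1728` has `[F : ℚ̄(x)]` places. -/
theorem br_card_of_emb (φ : F →ₐ[Kbar] LHb M) (x : F) (hφx : φ x = jLHb M)
    (c : Kbar) (hc0 : c ≠ 0) (hc1 : c ≠ 1728) :
    Nat.card {v : Place Kbar F // 0 < v.ord (x - algebraMap Kbar F c)} =
      Module.finrank Kbar⟮x⟯ F := by
  obtain ⟨w, hwK, hw⟩ := br_exists_val M c hc0 hc1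
  exact br_card_of_hom φ x (jLHb M) hφx (br_transcendental_jLHb M)
    (exists_finiteIndex_fixing_LHb M) (smul_jLHb M) (mem_adjoin_jLHb_of_invariant M) c w hwK hw

/-- **(G-BRANCH, `fibreCard` form)**. -/
theorem br_fibreCard_of_emb (φ : F →ₐ[Kbar] LHb M) (x : F) (hφx : φ x = jLHb M)
    (c : Kbar) (hc0 : c ≠ 0) (hc1 : c ≠ 1728) :
    Fermat.Agent.GoodRed.fibreCard Kbar x c = Module.finrank Kbar⟮x⟯ F := by
  haveI := br_finiteDimensional_of_emb φ x hφx
  haveI := br_isSeparable_of_emb φ x hφx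
  rw [Fermat.Agent.GoodRed.fibreCard_eq_card_zeros (br_transcendental_of_emb φ x hφx) c]
  exact br_card_of_emb φ x hφx c hc0 hc1

/-- the branch values `{0, 1728}`. -/
def brS : Finset Kbar := {0, 1728}

theorem mem_brS {c : Kbar} : c ∈ brS ↔ c = 0 ∨ c = 1728 := by
  classical
  simp [brS]

/-- **(G-BRANCH)** the hypothesis `hunram` of `genusFF_eq_of_branch`, `S = {0, 1728}`. -/
theorem br_hunram_of_emb (φ : F →ₐ[Kbar] LHb M) (x : F) (hφx : φ x = jLHb M) :
    ∀ c : Kbar, c ∉ brS →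
      Fermat.Agent.GoodRed.fibreCard Kbar x c = Module.finrank Kbar⟮x⟯ F := by
  intro c hc
  rw [mem_brS, not_or] at hc
  exact br_fibreCard_of_emb φ x hφx c hc.1 hc.2

end Fermat.Agent.S48WG
end
end MergeWrap_S48_W_G_Red_Branch_Count
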